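import Fermat.Statements.S51
import Fermat.Agent.S51.Assemble

set_option autoImplicit false
open WeierstrassCurve WeierstrassCurve.Affine WeierstrassCurve.Affine.Point
open CuspForm ModularFormClass UpperHalfPlane
open WeierstrassCurve

namespace Fermat.Agent.S51

theorem result (W : WeierstrassCurve ℤ) (hΔ : W.Δ ≠ 0) (hW : W.IsSemistableModel) : W.ModRepIsIrreducible 3 ∨ W.ModRepIsIrreducible 5 := by
  by_contra hcon
  push Not at hcon
  obtain ⟨h3, h5⟩ := hcon
  unfold ModRepIsIrreducible at h3 h5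
  have hΔQ : (W.map (Int.castRingHom ℚ)).Δ ≠ 0 := by
    rw [WeierstrassCurve.map_Δ]
    simpa using hΔ
  obtain ⟨s, hs, heq⟩ := asm_main (W.map (Int.castRingHom ℚ)) hΔQ h3 h5
  rw [WeierstrassCurve.map_c₄, WeierstrassCurve.map_Δ] at heq
  refine semistable_contra W.c₄ W.Δ hΔ (fun h => ?_) s hs (by simpa using heq)
  have := hW 5 Nat.prime_five (by exact_mod_cast h)
  exact_mod_cast this

end Fermat.Agent.S51
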