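import Fermat.Statements.S02

set_option autoImplicit false
open FreyPackage

namespace Fermat.Agent.S02

/-- Coprime case with `a` odd and `b` even. -/
theorem aux_odd_even (a b c : ℤ) (ha : a ≠ 0) (hb : b ≠ 0) (hc : c ≠ 0) (p : ℕ)
    (pp : p.Prime) (hp5 : 5 ≤ p) (H : a ^ p + b ^ p = c ^ p) (hab : gcd a b = 1)
    (haodd : Odd a) (hbeven : Even b) : Nonempty FreyPackage := by
  have hpodd : Odd p := pp.odd_of_ne_two (by omega)
  have hb2 : ((b : ℤ) : ZMod 2) = 0 := by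
    rw [ZMod.intCast_zmod_eq_zero_iff_dvd]
    exact even_iff_two_dvd.mp hbeven
  have hb2' : (((-b : ℤ) : ℤ) : ZMod 2) = 0 := by
    rw [ZMod.intCast_zmod_eq_zero_iff_dvd]
    exact (dvd_neg).mpr (even_iff_two_dvd.mp hbeven)
  obtain ⟨k, hk⟩ := haodd
  rcases Int.emod_two_eq_zero_or_one k with hk2 | hk2
  · -- a = 2k+1 with k even, so a = 1 mod 4; negate
    refine ⟨⟨-a, -b, -c, neg_ne_zero.mpr ha, neg_ne_zero.mpr hb, neg_ne_zero.mpr hc, p, pp, hp5,
      ?_, ?_, ?_, hb2'⟩⟩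
    · rw [hpodd.neg_pow, hpodd.neg_pow, hpodd.neg_pow, ← H]; ring
    · rw [gcd_neg, neg_gcd]; exact hab
    · obtain ⟨m, hm⟩ : (2 : ℤ) ∣ k := Int.dvd_of_emod_eq_zero hk2
      have : (-a : ℤ) = 3 + 4 * (-m - 1) := by rw [hk, hm]; ring
      rw [this]
      push_cast
      have h4 : ((4 : ℤ) : ZMod 4) = 0 := by decide
      have h4' : (4 : ZMod 4) = 0 := by decide
      rw [h4']; ring
  · refine ⟨⟨a, b, c, ha, hb, hc, p, pp, hp5, H, hab, ?_, hb2⟩⟩
    have hk' : k = 2 * (k / 2) + 1 := by omega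
    have : (a : ℤ) = 3 + 4 * (k / 2) := by rw [hk]; omega
    rw [this]
    push_cast
    have h4' : (4 : ZMod 4) = 0 := by decide
    rw [h4']; ring

/-- Coprime case. -/
theorem aux_coprime (a b c : ℤ) (ha : a ≠ 0) (hb : b ≠ 0) (hc : c ≠ 0) (p : ℕ)
    (pp : p.Prime) (hp5 : 5 ≤ p) (H : a ^ p + b ^ p = c ^ p) (hab : gcd a b = 1) :
    Nonempty FreyPackage := by
  have hpodd : Odd p := pp.odd_of_ne_two (by omega)
  have hp0 : p ≠ 0 := pp.ne_zero
  have hppos : 0 < p := pp.pos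
  rcases Int.even_or_odd a with hae | hao
  · -- a even; then b odd
    have hbo : Odd b := by
      rw [← Int.not_even_iff_odd]
      intro hbe
      have h2 : (2 : ℤ) ∣ gcd a b :=
        dvd_gcd (even_iff_two_dvd.mp hae) (even_iff_two_dvd.mp hbe)
      rw [hab] at h2
      norm_num at h2
    exact aux_odd_even b a c hb ha hc p pp hp5 (by rw [add_comm]; exact H)
      (by rw [gcd_comm]; exact hab) hbo hae
  · rcases Int.even_or_odd b with hbe | hbo
    · exact aux_odd_even a b c ha hb hc p pp hp5 H hab hao hbe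
    · -- both odd, c even: a^p + (-c)^p = (-b)^p
      have hce : Even c := by
        have h1 : Odd (a ^ p) := hao.pow
        have h2 : Odd (b ^ p) := hbo.pow
        have h3 : Even (c ^ p) := by rw [← H]; exact h1.add_odd h2
        exact (Int.even_pow.mp h3).1
      have hac : gcd a c = 1 := by rw [← gcdab_eq_gcdac hppos H]; exact hab
      refine aux_odd_even a (-c) (-b) ha (neg_ne_zero.mpr hc) (neg_ne_zero.mpr hb) p pp hp5 ?_ ?_
        hao hce.neg
      · rw [hpodd.neg_pow, hpodd.neg_pow, ← H]; ring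
      · rw [gcd_neg]; exact hac

theorem result (a b c : ℤ) (ha : a ≠ 0) (hb : b ≠ 0) (hc : c ≠ 0) (p : ℕ) (pp : p.Prime) (hp5 : 5 ≤ p) (H : a ^ p + b ^ p = c ^ p) : Nonempty FreyPackage := by
  have hp0 : p ≠ 0 := pp.ne_zero
  -- divide out by the gcd
  set d : ℤ := gcd a b with hd
  have hd0 : d ≠ 0 := by
    intro h
    rw [hd] at h
    exact ha ((gcd_eq_zero_iff a b).mp h).1
  obtain ⟨a', ha'⟩ : d ∣ a := gcd_dvd_left a b
  obtain ⟨b', hb'⟩ : d ∣ b := gcd_dvd_right a b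
  have hdc : d ∣ c := by
    rw [← Int.pow_dvd_pow_iff hp0, ← H]
    exact dvd_add (pow_dvd_pow_of_dvd (gcd_dvd_left a b) p) (pow_dvd_pow_of_dvd (gcd_dvd_right a b) p)
  obtain ⟨c', hc'⟩ := hdc
  have ha'0 : a' ≠ 0 := by rintro rfl; exact ha (by rw [ha', mul_zero])
  have hb'0 : b' ≠ 0 := by rintro rfl; exact hb (by rw [hb', mul_zero])
  have hc'0 : c' ≠ 0 := by rintro rfl; exact hc (by rw [hc', mul_zero])
  have H' : a' ^ p + b' ^ p = c' ^ p := by
    have hdp : d ^ p ≠ 0 := pow_ne_zero p hd0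
    apply mul_left_cancel₀ hdp
    rw [mul_add, ← mul_pow, ← mul_pow, ← mul_pow, ← ha', ← hb', ← hc']
    exact H
  have hab' : gcd a' b' = 1 := by
    have h1 : gcd a b = normalize d * gcd a' b' := by
      conv_lhs => rw [ha', hb']
      rw [gcd_mul_left]
    have h2 : normalize d = d := by rw [hd]; exact normalize_gcd a b
    rw [h2, ← hd] at h1
    have h3 : d * gcd a' b' = d * 1 := by rw [mul_one]; exact h1.symm
    exact mul_left_cancel₀ hd0 h3
  exact aux_coprime a' b' c' ha'0 hb'0 hc'0 p pp hp5 H' hab'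

end Fermat.Agent.S02
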