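import Fermat.Statements.S05
import Fermat.Agent.S05.h26_Glue
import Fermat.Agent.S05.Core

set_option autoImplicit false
open WeierstrassCurve WeierstrassCurve.Affine WeierstrassCurve.Affine.Point
open CuspForm ModularFormClass UpperHalfPlane
open FreyPackage

namespace Fermat.Agent.S05

theorem result (P : FreyPackage) {q : ℕ} (hq : q.Prime) (hq2 : q ≠ 2) (hqp : q ≠ P.p) : P.GaloisRepUnramifiedAt q :=
  h26_glue
    (fun A a b p hvp h2 ha hb hd σ hσA hσm hσa hσb _ _ h hT =>
      core_good A a b p hvp h2 ha hb hd σ hσA hσm hσa hσb h hT)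
    (fun A a b g₀ p hp hp2 hvp h2 ha hg hg0 hb σ hσA hσm hσa hσb hσg _ _ h hT =>
      core_mult A a b g₀ p hp hp2 hvp h2 ha hg hg0 hb σ hσA hσm hσa hσb hσg h hT)
    P hq hq2 hqp

end Fermat.Agent.S05
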