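import Fermat.Statements.S07
import Fermat.Prelude.Thm_ModularForm_sturm_bound_Gamma0
import Fermat.Prelude.Thm_CongruenceSubgroup_one_mem_strictPeriods_Gamma0

set_option autoImplicit false
open WeierstrassCurve WeierstrassCurve.Affine WeierstrassCurve.Affine.Point
open CuspForm ModularFormClass UpperHalfPlane
open ModularForm

namespace Fermat.Agent.S07

open scoped MatrixGroups

/-- Two elements of `SL(2, ℤ)` with the same first column mod 2 lie in the same left coset
of `Γ₀(2)`. -/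
theorem gamma0_two_coset (a b : SL(2, ℤ))
    (h0 : ((a 0 0 : ℤ) : ZMod 2) = ((b 0 0 : ℤ) : ZMod 2))
    (h1 : ((a 1 0 : ℤ) : ZMod 2) = ((b 1 0 : ℤ) : ZMod 2)) :
    a⁻¹ * b ∈ CongruenceSubgroup.Gamma0 2 := by
  rw [CongruenceSubgroup.Gamma0_mem]
  have hinv := Matrix.SpecialLinearGroup.SL2_inv_expl a
  have hmul := (Matrix.two_mul_expl (a⁻¹ : SL(2, ℤ)).1 b.1).2.2.1
  have e : ((a⁻¹ * b : SL(2, ℤ)) 1 0 : ℤ) = -(a 1 0) * (b 0 0) + (a 0 0) * (b 1 0) := by
    rw [Matrix.SpecialLinearGroup.coe_mul, hmul, hinv]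
    simp
  rw [e]
  push_cast
  rw [h0, h1]
  ring

theorem gamma0_two_index_le : (CongruenceSubgroup.Gamma0 2).index ≤ 4 := by
  classical
  let φ : SL(2, ℤ) → ZMod 2 × ZMod 2 := fun g => (((g 0 0 : ℤ) : ZMod 2), ((g 1 0 : ℤ) : ZMod 2))
  have hφ : ∀ a b : SL(2, ℤ), φ a = φ b → a⁻¹ * b ∈ CongruenceSubgroup.Gamma0 2 := by
    intro a b hab
    have h0 : ((a 0 0 : ℤ) : ZMod 2) = ((b 0 0 : ℤ) : ZMod 2) := congrArg Prod.fst hab
    have h1 : ((a 1 0 : ℤ) : ZMod 2) = ((b 1 0 : ℤ) : ZMod 2) := congrArg Prod.snd hab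
    exact gamma0_two_coset a b h0 h1
  let ψ : SL(2, ℤ) ⧸ CongruenceSubgroup.Gamma0 2 → ZMod 2 × ZMod 2 :=
    fun q => φ (Quotient.out q)
  have hψ : Function.Injective ψ := by
    intro x y hxy
    have := hφ _ _ hxy
    rw [← QuotientGroup.out_eq' x, ← QuotientGroup.out_eq' y]
    exact QuotientGroup.eq.mpr this
  have hcard : Nat.card (SL(2, ℤ) ⧸ CongruenceSubgroup.Gamma0 2) ≤ Nat.card (ZMod 2 × ZMod 2) :=
    Nat.card_le_card_of_injective ψ hψ
  have h4 : Nat.card (ZMod 2 × ZMod 2) = 4 := by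
    rw [Nat.card_prod, Nat.card_zmod]
  rw [Subgroup.index]
  omega

theorem result (f : CuspForm (CongruenceSubgroup.Gamma0 2) 2) : f = 0 := by
  have hF : (ModularFormClass.modularForm f : ModularForm (CongruenceSubgroup.Gamma0 2) 2) = 0 := by
    apply ModularForm.sturm_bound_Gamma0 2
    intro n hn
    have hidx := gamma0_two_index_le
    have hn0 : n = 0 := by
      have : ((2 : ℤ) * ((CongruenceSubgroup.Gamma0 2).index : ℤ)).toNat / 12 = 0 := by
        omega
      omega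
    subst hn0
    exact CuspFormClass.qExpansion_coeff_zero f one_pos
      (CongruenceSubgroup.one_mem_strictPeriods_Gamma0 2)
  ext z
  have := congrArg (fun g : ModularForm (CongruenceSubgroup.Gamma0 2) 2 => g z) hF
  simpa using this

end Fermat.Agent.S07
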