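import Fermat.Statements.S08

set_option autoImplicit false
open WeierstrassCurve WeierstrassCurve.Affine WeierstrassCurve.Affine.Point
open CuspForm ModularFormClass UpperHalfPlane
open ModularForm

namespace Fermat.Agent.S08

open scoped MatrixGroups in
theorem gamma0_one_coe_eq_SL :
    ((CongruenceSubgroup.Gamma0 1 : Subgroup SL(2, ℤ)) : Subgroup (GL (Fin 2) ℝ)) = 𝒮ℒ := by
  have h : (CongruenceSubgroup.Gamma0 1 : Subgroup SL(2, ℤ)) = ⊤ := by
    ext g
    simp [CongruenceSubgroup.Gamma0_mem, Subsingleton.elim _ (0 : ZMod 1)]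
  rw [h]
  exact (MonoidHom.range_eq_map _).symm

open scoped MatrixGroups in
theorem cuspForm_weight_two_eq_zero_of_eq_SL (Γ : Subgroup (GL (Fin 2) ℝ)) (hΓ : Γ = 𝒮ℒ)
    (f : CuspForm Γ 2) : f = 0 := by
  subst hΓ
  exact rank_zero_iff_forall_zero.mp
    (CuspForm.rank_eq_zero_of_weight_lt_twelve (k := 2) (by norm_num)) f

theorem result (f : CuspForm (CongruenceSubgroup.Gamma0 1) 2) : f = 0 := by
  exact cuspForm_weight_two_eq_zero_of_eq_SL _ gamma0_one_coe_eq_SL f

end Fermat.Agent.S08
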