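import Fermat.Statements.S11
import Fermat.Agent.S11.FLT

set_option autoImplicit false
open WeierstrassCurve WeierstrassCurve.Affine WeierstrassCurve.Affine.Point
open CuspForm ModularFormClass UpperHalfPlane
open FreyPackage

namespace Fermat.Agent.S11

/-- There is no Frey package with `p = 11`, by Fermat's Last Theorem for exponent `11`. -/
theorem no_frey_eleven (P : FreyPackage) (hp : P.p = 11) : False := by
  have h := P.hFLT
  rw [hp] at h
  have hab : IsCoprime P.a P.b := Int.isCoprime_iff_gcd_eq_one.mpr (by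
    have h1 : ((Int.gcd P.a P.b : ℕ) : ℤ) = 1 := by rw [Int.coe_gcd]; exact P.hgcdab
    exact_mod_cast h1)
  have hac : IsCoprime P.a P.c := Int.isCoprime_iff_gcd_eq_one.mpr (by
    have h1 : ((Int.gcd P.a P.c : ℕ) : ℤ) = 1 := by rw [Int.coe_gcd]; exact P.hgcdac
    exact_mod_cast h1)
  have hbc : IsCoprime P.b P.c := Int.isCoprime_iff_gcd_eq_one.mpr (by
    have h1 : ((Int.gcd P.b P.c : ℕ) : ℤ) = 1 := by rw [Int.coe_gcd]; exact P.hgcdbc
    exact_mod_cast h1)
  exact flt_eleven_coprime P.a P.b P.c P.ha0 P.hb0 P.hc0 hab hac hbc h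

theorem result (P : FreyPackage) (hp : P.p = 11) : ¬ HasGaloisStableCofixedLine (K := AlgebraicClosure ℚ) ℚ P.freyCurve P.p := by
  exact (no_frey_eleven P hp).elim

end Fermat.Agent.S11
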