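import Fermat.Statements.S13
import Fermat.Agent.S13.h6_Main
import Fermat.Agent.S13.h48_At2Final

set_option autoImplicit false
open WeierstrassCurve WeierstrassCurve.Affine WeierstrassCurve.Affine.Point
open CuspForm ModularFormClass UpperHalfPlane
open FreyPackage

namespace Fermat.Agent.S13

theorem result (P : FreyPackage) (hred : ¬ GaloisRepIsIrreducible (K := AlgebraicClosure ℚ) ℚ P.freyCurve P.p) : HasGaloisStableCofixedLine (K := AlgebraicClosure ℚ) ℚ P.freyCurve P.p :=
  h6_S13_of_C1_C2 P
    (fun A hA σ hσ x => h48_inertia_two_unipotent P A hA σ hσ x)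
    (fun x hx => h48_no_rational_torsion P x hx) hred

end Fermat.Agent.S13
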