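-- Statement S14 (row 13): ExtCitation.ExtVanishingCts p for every prime p ≥ 3.
-- Proof: `gal_reduction` (a non-split admissible extension gives number fields K = ℚ(ζ_p) ⊆ L
-- with `CoreData p K L`) and `core` (no such pair of fields exists).
import Fermat.Statements.S14
import Fermat.Agent.S14.Gal
import Fermat.Agent.S14.Core

set_option autoImplicit false
open ExtCitation

namespace Fermat.Agent.S14

theorem result {p : ℕ} [Fact p.Prime] (h3 : 3 ≤ p) :
    ExtCitation.ExtVanishingCts p := by
  intro V _ _ _ _ C hadm
  by_contra hns
  obtain ⟨K, L, _, _, _, _, _, _, _, h⟩ := gal_reduction p h3 V C hadm hns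
  exact core p (by omega) K L h

end Fermat.Agent.S14
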