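-- Statement S18 (row 17): reduction mod ℓ is injective on prime-to-ℓ torsion of J₀(N).
-- Assembly (helper39) of the S18 project layers under Fermat/Agent/S18/:
--   TOP-RED (helper60), MOD (helper54 et al.), RR-B (helper75 et al.), GR (helper39/helper53 et al.),
--   CORE (helper53, helper64).
import Fermat.Statements.S18
import Fermat.Agent.S18.h39_Final
import Fermat.Agent.S18.h39_Mod
import Fermat.Agent.S18.h39_PlaceRedOfChart

set_option autoImplicit false
open ModularCurve

namespace Fermat.Agent.S18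

set_option synthInstance.maxHeartbeats 400000 in
theorem result (N : ℕ) [NeZero N] {ℓ : ℕ}
    [Fact ℓ.Prime] (hℓN : ¬ ℓ ∣ N) (A : ValuationSubring (AlgebraicClosure ℚ)) (hA : A.LiesOverPrime ℓ)
    (h : ModularCurve.ReductionInputsModL A N) (m : ℕ) (hm : ¬ ℓ ∣ m) (z : ModularCurve.JZero N)
    (hmz : m • z = 0) (hz : ModularCurve.reductionModL A N z = 0) :
    z = 0 :=
  h39_S18_of_mod
    (fun N _ _ _ hℓN A hA => h39_modRed N hℓN A hA)
    (fun N _ _ _ hℓN A hA => h39_modRed_spec N hℓN A hA)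
    (fun N _ _ _ hℓN A hA => ⟨_, h39_modRed_weakChart_j N hℓN A hA⟩)
    (fun N _ _ _ hℓN hℓ A hA => ⟨_, h39_modRed_chart_j N hℓN A hA hℓ⟩)
    (fun N _ h2 _ _ hℓN A hA => h39_modRed_chart_h2 N hℓN A hA h2)
    (fun N _ h3 _ _ hℓN A hA => h39_modRed_chart_h3 N hℓN A hA h3)
    (fun N _ A R x hx => by
      have hk : IsAlgClosed (IsLocalRing.ResidueField A) := h19_residueField_isAlgClosed A
      exact h39_nonempty_placeRed_of_chart R hx)
    N hℓN A hA h m hm z hmz hz

end Fermat.Agent.S18
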