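-- Statement S17: Mordell–Weil for J₀(N), N ≥ 5 prime (route R55: Schmidt heights of
-- Riemann–Roch spaces, complementary pairs, Siegel; weak Mordell–Weil by Kummer theory).
import Fermat.Statements.S17
import Fermat.Agent.S17.h55_Frame
import Fermat.Agent.S17.h99_Descent
import Fermat.Agent.S17.R55_HT2
import Fermat.Agent.S17.R55_MF
import Fermat.Agent.S17.h45_WeakMWFinal

set_option autoImplicit false
open ModularCurve AlgebraicCurve
open ModularCurve ModularCurve.JZero

namespace Fermat.Agent.S17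

theorem result (N : ℕ) [NeZero N] (hN : N.Prime) (hN5 : 5 ≤ N) :
    AddGroup.FG ↥(FixedPoints.addSubgroup ((AlgebraicClosure ℚ) ≃ₐ[ℚ] (AlgebraicClosure ℚ)) (JZero N)) := by
  obtain ⟨fr, hact⟩ := h55_exists_frame N hN hN5
  obtain ⟨q, ⟨C, hpar⟩, ⟨C', hlow⟩, hfin⟩ := h55_height_exists fr
  have hfix : ∀ c : JZero N,
      c ∈ FixedPoints.addSubgroup ((AlgebraicClosure ℚ) ≃ₐ[ℚ] (AlgebraicClosure ℚ)) (JZero N) →
        fr.IsFixed c := by
    intro c hc σ
    rw [hact σ]
    exact hc σ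
  have : Fact (Nat.Prime 3) := ⟨by norm_num⟩
  refine h99_fg_subgroup_of_par _ (q := q) (C := C) (C' := C') (n := 3) (by norm_num)
    (h45_weakMW_final N 3) (fun x hx y hy => hpar x y (hfix x hx) (hfix y hy))
    (fun x hx => hlow x (hfix x hx)) (fun B => (hfin B).subset fun x hx => ⟨hfix x hx.1, hx.2⟩)

end Fermat.Agent.S17
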