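-- Statement S24 (row 23): genus of the modular function field of level `Γ₀(N)` over `ℚ̄`.
-- The statement below is byte-identical to the frozen statement (Fermat/Statements/S24.lean).
import Fermat.Statements.S24
import Fermat.Agent.S24.h73_GenusFibre
import Fermat.Agent.S24.h59_Gen
import Fermat.Agent.S24.h33_Cusps
import Fermat.Agent.S24.h29_Index
import Fermat.Agent.S24.h29_Elliptic
import Fermat.Agent.S24.h47_Numerics
import Fermat.Agent.S24.h78_Fibres

/-!
# S24: `g(X₀(N)) = genusFormula N`

Assembly of the three layers of the S24 project: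

* ALG (`h73_genus_of_fibre_counts`): Riemann–Hurwitz for `K(t) ⊆ F` with three branch values,
  expressing the genus through the degree and the sizes of the fibres over `1728`, `0`, `∞`;
* MOD (`h78_*`): for `F = ℚ̄(j, j_N)` and `t = j`: the degree is `#(SL₂(ℤ)/Γ₀(N))`, the fibres over
  `a ≠ 0, 1728` are unramified, and the fibres over `1728`, `0`, `∞` are counted by the orbits of
  `S`, `S * T`, `T` on the cosets;
* COMB (`h47_genus_of_counts`, `h29_*`, `h33_*`): the orbit counts give `genusFormula N`.
-/

set_option autoImplicit false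
open ModularCurve
open scoped MatrixGroups
open IntermediateField AlgebraicCurve

namespace Fermat.Agent.S24

theorem result (N : ℕ) [NeZero N]
    [AlgebraicCurve.HasCanonicalDivisor (K := AlgebraicClosure ℚ) (F := ↥(ModularCurve.modularFunctionFieldBar N))] :
    (AlgebraicCurve.genus (AlgebraicClosure ℚ) ↥(ModularCurve.modularFunctionFieldBar N) : ℚ)
      = ModularCurve.genusFormula N := by
  have hfd := h78_finiteDimensional N
  have hne : (1728 : AlgebraicClosure ℚ) ≠ 0 := by norm_num
  have hg := h73_genus_of_fibre_counts (K := AlgebraicClosure ℚ)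
    (F := ↥(modularFunctionFieldBar N)) (h59_jbar N) (h59_jbar_transcendental N)
    (1728 : AlgebraicClosure ℚ) 0 hne
    (fun a h1 h0 => by rw [h78_card_fibre N a h0 h1, h78_finrank N])
  rw [hg, h78_finrank N, h78_card_fibre_1728 N, h78_card_fibre_zero N, h78_card_poles N]
  exact h47_genus_of_counts N (G := SL(2, ℤ)) (X := SL(2, ℤ) ⧸ CongruenceSubgroup.Gamma0 N)
    ModularGroup.S ModularGroup.T SpecialLinearGroup.SL2Z_generators
    (h29_card_quotient_Gamma0 N) (h29_orbits_S N) (h29_orbits_ST N) (h33_orbits_T N)

end Fermat.Agent.S24
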