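import Fermat.Statements.S28
import Fermat.Agent.S28.Wrapper
import Fermat.Agent.S28.CoeffMem
import Fermat.Agent.S28.KerRed
import Fermat.Agent.S28.h47_TensorCore
import Fermat.Agent.S28.h64_ConjExists

set_option autoImplicit false
open AlgebraicGeometry CategoryTheory CategoryTheory.Limits ModularCurve ModularCurve.IgusaScheme
noncomputable section
set_option autoImplicit false
open ModularCurve ModularCurve.IgusaScheme

namespace Fermat.Agent.S28

set_option maxHeartbeats 4000000 in
set_option synthInstance.maxHeartbeats 400000 in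
theorem result
    (N : ℕ) [NeZero N] (ℓ : ℕ) [Fact ℓ.Prime] (hℓN : ¬ ℓ ∣ N)
    (K : Type) [Field K] [CharP K ℓ] [Algebra ↥(GaloisRep.ratLocalizedAt ℓ) K] :
    IsIntegral ↑(pullback (igusaTo N ℓ)
      (Spec.map (CommRingCat.ofHom (algebraMap ↥(GaloisRep.ratLocalizedAt ℓ) K)))) := by
  have hF := exists_conjFamily N
  refine igusa_isIntegral_of_isDomain N ℓ K ?_ ?_ ?_
  · exact h47_chartAlg_tensor_isDomain_of N ℓ K {jFull N}
      (fun x hx n => chartAlg_coeff_mem N ℓ _ (by simp) x hx n)
      (fun x hx h0 => chartAlg_ker_red_of_nonempty N ℓ hℓN hF _ (Or.inl rfl) x hx h0)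
  · exact h47_chartAlg_tensor_isDomain_of N ℓ K {(jFull N)⁻¹}
      (fun x hx n => chartAlg_coeff_mem N ℓ _ (by simp) x hx n)
      (fun x hx h0 => chartAlg_ker_red_of_nonempty N ℓ hℓN hF _ (Or.inr rfl) x hx h0)
  · exact h47_chartAlg_tensor_nontrivial_of N ℓ K {jFull N, (jFull N)⁻¹}
      (fun x hx n => chartAlg_coeff_mem N ℓ _ subset_rfl x hx n)

end Fermat.Agent.S28
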