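-- Statement S29 (row 28): a normalised weight-2 eigenform on Γ₀(N) has an attached mod-p Galois
-- representation, unramified outside Np.
-- Assembly (helper29, GAL lead) of the GAL project under Fermat/Agent/GAL/:
--   `gal_S29_of_inputs` (h29_Top: carrier + BLR + weak Chebotarev + packaging),
--   THETA `gal_thetaProp` (analytic layer, helper77 et al.),
--   the reduction interface `h60_redData` (S37 layer, helper87 et al., on top of S18).
import Fermat.Statements.S29
import Fermat.Agent.GAL.h29_Top
import Fermat.Agent.GAL.Theta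
import Fermat.Agent.S37.h60_Final

set_option autoImplicit false
open CuspForm CuspForm.IsNormalizedEigenform

namespace Fermat.Agent.S29

theorem result
    {N : ℕ} {g : CuspForm (CongruenceSubgroup.Gamma0 N) 2} (hg : g.IsNormalizedEigenform)
    {p : ℕ} (hp : p.Prime) {k : Type} [Field k] [CharP k p]
    (φ : integralClosure ℤ ℂ →+* k) :
    ∃ ρ : ResidualGaloisRep k, ρ.IsAttachedTo g φ ∧
      ∀ ℓ : ℕ, ℓ.Prime → ¬ ℓ ∣ N * p → ρ.IsUnramifiedAt ℓ :=
  Fermat.Agent.GAL.gal_S29_of_inputs
    (fun N p _ _ ℓ hℓ h A hA => Fermat.Agent.S37.h60_redData N p ℓ hℓ h A hA)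
    (fun N p _ hp => haveI : NeZero p := ⟨hp.ne_zero⟩; Fermat.Agent.GAL.gal_thetaProp N p)
    hg hp φ

end Fermat.Agent.S29
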