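-- Statement S32: the Galois representation of a Hecke-Galois datum is flat at p (p odd, p ∤ N).
-- Proof: `h91_S32_of_chart_coords` (S32/h91_Top.lean) applied to the S19 modular glue
-- `h26_coords_of_chart` (S19/CoordsOfChart.lean).
import Fermat.Statements.S32
import Fermat.Agent.S32.h91_Top
import Fermat.Agent.S19.CoordsOfChart

set_option autoImplicit false
variable {p : ℕ} {N : ℕ} [NeZero N] {S : Finset ℕ}
  {𝒪 : Type} [CommRing 𝒪] [IsDomain 𝒪] [IsDiscreteValuationRing 𝒪]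
  [IsAdicComplete (IsLocalRing.maximalIdeal 𝒪) 𝒪]
  {θ : CuspForm.heckeAlgebra N 2 (↑S : Set ℕ) →+* IsLocalRing.ResidueField 𝒪}
  {T : Type} [CommRing T] [IsLocalRing T] [IsNoetherianRing T]
  [IsAdicComplete (IsLocalRing.maximalIdeal T) T] [Algebra 𝒪 T] [IsLocalHom (algebraMap 𝒪 T)]
  [Module.Finite 𝒪 T] [Module.Free 𝒪 T]
open CuspForm CuspForm.HeckeGaloisRepDatum

namespace Fermat.Agent.S32

theorem result
    [Finite (IsLocalRing.ResidueField 𝒪)] [CharZero 𝒪]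
    (hp : p.Prime) (hp2 : p ≠ 2) (hp𝒪 : (p : 𝒪) ∈ IsLocalRing.maximalIdeal 𝒪) (hpN : ¬ p ∣ N)
    (hpS : p ∈ S) (hNS : ∀ q : ℕ, q.Prime → q ∣ N → q ∈ S)
    (H : CuspForm.HeckeGaloisRepDatum N (↑S : Set ℕ) 𝒪 θ T) :
    H.ρ.IsFlatAt p :=
  h91_S32_of_chart_coords
    (fun N' _ ℓ _ hℓN hch k => Fermat.Agent.S19.h26_coords_of_chart N' ℓ hℓN hch k)
    hp hp2 hp𝒪 hpN hpS hNS H

end Fermat.Agent.S32
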