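import Fermat.Statements.S33
import Fermat.Agent.S33.h91_S33Top
import Fermat.Agent.S33.h48_OrdGeom
import Fermat.Agent.S33.h52_GeomJ
import Fermat.Agent.S33.h67_NMinInst

/-!
# S33 : `ρ` is ordinary at `p ∥ N` (Mazur–Wiles / Ribet, via the toric part)

The top chain (all names in `Fermat.Agent.S33`):

* `h91_S33_of_geom_trans` (machine + algebra: `h14_S33_of_one_limit`, `h91_ord_of_split`,
  `h48_ordcore_ker_split`);
* `h48_split_of_geom` (transport of the per-level geometric statement `h9_GeomStmt` on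
  `J₀(N)[p ^ n]` to the Galois span of the Hecke lattice);
* `h52_geomStmt` (`h9_GeomStmt` from the old part `h82_ord_old` = `h9_ordOld` + frozen S19 and
  the new part `h70_NewMin`);
* `h67_newMin` (N-min: a `p`-torsion toric new class fixed by an inertia element moving `μ_p`
  is zero; generic cover argument `h34_nmin`, deep representative `h10_N1_final_pow`).
-/

set_option autoImplicit false
variable {p : ℕ} {N : ℕ} [NeZero N] {S : Finset ℕ}
  {𝒪 : Type} [CommRing 𝒪] [IsDomain 𝒪] [IsDiscreteValuationRing 𝒪]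
  [IsAdicComplete (IsLocalRing.maximalIdeal 𝒪) 𝒪]
  {θ : CuspForm.heckeAlgebra N 2 (↑S : Set ℕ) →+* IsLocalRing.ResidueField 𝒪}
  {T : Type} [CommRing T] [IsLocalRing T] [IsNoetherianRing T]
  [IsAdicComplete (IsLocalRing.maximalIdeal T) T] [Algebra 𝒪 T] [IsLocalHom (algebraMap 𝒪 T)]
  [Module.Finite 𝒪 T] [Module.Free 𝒪 T]
open CuspForm CuspForm.HeckeGaloisRepDatum

namespace Fermat.Agent.S33

theorem result
    [Finite (IsLocalRing.ResidueField 𝒪)] [CharZero 𝒪]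
    (hp : p.Prime) (hp2 : p ≠ 2) (hp𝒪 : (p : 𝒪) ∈ IsLocalRing.maximalIdeal 𝒪) (hN : p ∣ N ∧ ¬ p ^ 2 ∣ N)
    (hNS : ∀ q : ℕ, q.Prime → q ∣ N → q ∈ S)
    (H : CuspForm.HeckeGaloisRepDatum N (↑S : Set ℕ) 𝒪 θ T)
    (hres : (GaloisRepAdic.ofResidualGaloisRep H.ρ.residual).IsOrdinaryAt p) :
    H.ρ.IsOrdinaryAt p := by
  have hFact : Fact p.Prime := ⟨hp⟩
  have hNeZero : NeZero p := ⟨hp.ne_zero⟩
  exact h91_S33_of_geom_trans hp hp2 hp𝒪 hN.1 hNS H hres
    (fun hNS' qM hlevel P σ0 n _ _ _ hg =>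
      h48_split_of_geom hNS H (Fermat.Agent.GAL.h65_iota N (↑S : Set ℕ) hNS') qM P σ0 n
        (hlevel n) hg)
    (fun P hP σ0 hσ0 a hcyc ha n _ =>
      h52_geomStmt N p hp2 hN.1 hN.2 P hP σ0
        (h67_newMin p P hP σ0 hσ0 a hcyc ha N hN.1 hN.2) n)

end Fermat.Agent.S33
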