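-- Statement S34: `CuspForm.HeckeGaloisRepDatum.isUnipotentOnInertiaAt_of_dvd_of_not_sq_dvd`.
-- Assembly (helper65): `h29_S34_of_geom` (unipotence from the geometric target),
-- `h87_geom_of_chart` (the geometric target from the chart package for the lattice `h87_D`),
-- `h65_chart_inst` (the chart package, assembled from the modular rows).
import Fermat.Statements.S34
import Fermat.Agent.S34.h29_UnipTop
import Fermat.Agent.S34.h87_TopMq
import Fermat.Agent.S34.h65_ChartInst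

set_option autoImplicit false
set_option autoImplicit false
open IsLocalRing
open CuspForm CuspForm.HeckeGaloisRepDatum

namespace Fermat.Agent.S34

theorem result
    {𝒪 : Type} [CommRing 𝒪] [IsDomain 𝒪] [IsDiscreteValuationRing 𝒪]
    [IsAdicComplete (maximalIdeal 𝒪) 𝒪] [Finite (ResidueField 𝒪)] [CharZero 𝒪]
    {p : ℕ} (hp : p.Prime) (hp𝒪 : (p : 𝒪) ∈ maximalIdeal 𝒪)
    {N : ℕ} [NeZero N] {S : Finset ℕ} (hpS : p ∈ S) (hNS : ∀ q : ℕ, q.Prime → q ∣ N → q ∈ S)
    {θ : CuspForm.heckeAlgebra N 2 (↑S : Set ℕ) →+* ResidueField 𝒪}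
    {T : Type} [CommRing T] [IsLocalRing T] [IsNoetherianRing T]
    [IsAdicComplete (maximalIdeal T) T] [Algebra 𝒪 T] [IsLocalHom (algebraMap 𝒪 T)]
    [Module.Finite 𝒪 T] [Module.Free 𝒪 T]
    (H : CuspForm.HeckeGaloisRepDatum N (↑S : Set ℕ) 𝒪 θ T)
    (q : ℕ) (hq : q.Prime) (hqp : q ≠ p) (hqN : q ∣ N) (hq2 : ¬ q ^ 2 ∣ N) :
    H.ρ.IsUnipotentOnInertiaAt q :=
  h29_S34_of_geom hp hp𝒪 hpS hNS H q hq hqp
    (h87_geom_of_chart
      (fun M q _ _ _ hqM hch A hA m hm => h65_chart_inst M q hqM hch A hA m hm) N q hq hqN hq2)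

end Fermat.Agent.S34
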