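-- Statement S37 (row 36): Eichler–Shimura congruence relation, packaged (SpecializationExists).
-- Assembly: helper87's package/assembly (h87_S37_of_redData, h87_redData_of) + the S37 rows
-- (FI, NF, HI, DEG, K1, PGI, LVL, EFF) + S18 at the auxiliary level (h60_redData).
import Fermat.Statements.S37
import Fermat.Agent.S37.h87_Assembly
import Fermat.Agent.S37.h60_Final

set_option autoImplicit false
open ModularCurve

namespace Fermat.Agent.S37

theorem result (N p : ℕ) [NeZero N] (hcomm : ModularCurve.HeckeOperatorsCommuteBar N) : letI := ModularCurve.heckeModuleBar N; ∀ (_ : SMulCommClass (AlgebraicClosure ℚ ≃ₐ[ℚ] AlgebraicClosure ℚ) ModularCurve.HeckeAlg (ModularCurve.JZero N)), ModularCurve.SpecializationExists (K := ℚ) (L := AlgebraicClosure ℚ) N p (ModularCurve.JZero N) :=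
  h87_S37_of_redData N p hcomm (fun ℓ hℓ h A hA => h60_redData N p ℓ hℓ h A hA)

end Fermat.Agent.S37
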