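-- Statement S41 (level raising: a mod-p congruent eigenform of level N * q', new at q').
-- Assembly: `h99_S41_of_B` (S41/h99_BPack.lean) applied to the two (B) inputs
--   INTR  (interior cusp formula, S41/h92_BIntr.lean: `h92_intr`) and
--   RESTR (res/tr adjointness of the pairing, S41/h62_BResTr.lean: `h62_B_res_tr`).
import Fermat.Statements.S41
import Fermat.Agent.S41.h99_BPack
import Fermat.Agent.S41.h92_BIntr
import Fermat.Agent.S41.h62_BResTr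

set_option autoImplicit false
open WeierstrassCurve WeierstrassCurve.Affine WeierstrassCurve.Affine.Point
open scoped CongruenceSubgroup
open WeierstrassCurve

namespace Fermat.Agent.S41

theorem result
    (E : WeierstrassCurve ℚ) [E.IsElliptic] {W : WeierstrassCurve ℤ} (hW : W.IsIntegralModelOf E)
    {p N q' : ℕ} (hp : p.Prime) (hp2 : p ≠ 2) (hN : 0 < N) (hq' : q'.Prime) (hq'N : ¬ q' ∣ N) (hq'p : q' ≠ p)
    (hirr : GaloisRepIsIrreducible (K := AlgebraicClosure ℚ) ℚ E p)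
    (f : CuspForm (CongruenceSubgroup.Gamma0 N) 2) (𝔪 : Ideal (integralClosure ℤ ℂ))
    (hf : f.IsNormalizedEigenform) (hmax : 𝔪.IsMaximal) (hpm : (p : integralClosure ℤ ℂ) ∈ 𝔪)
    (hcong : ∀ ℓ : ℕ, ℓ.Prime → W.IsGoodPrimeFor ℓ → ¬ ℓ ∣ N → ℓ ≠ p →
      ∃ a : integralClosure ℤ ℂ, (a : ℂ) = ModularFormClass.qCoeff f ℓ ∧
        a - ((W.apOfModel ℓ : ℤ) : integralClosure ℤ ℂ) ∈ 𝔪)
    (hLR : ∃ a : integralClosure ℤ ℂ, (a : ℂ) = ModularFormClass.qCoeff f q' ∧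
      a ^ 2 - ((q' : integralClosure ℤ ℂ) + 1) ^ 2 ∈ 𝔪) :
    ∃ (g : CuspForm (CongruenceSubgroup.Gamma0 (N * q')) 2) (𝔪' : Ideal (integralClosure ℤ ℂ)),
      g.IsNormalizedEigenform ∧ 𝔪'.IsMaximal ∧ (p : integralClosure ℤ ℂ) ∈ 𝔪' ∧
      (∀ ℓ : ℕ, ℓ.Prime → W.IsGoodPrimeFor ℓ → ¬ ℓ ∣ N * q' → ℓ ≠ p →
        ∃ a : integralClosure ℤ ℂ, (a : ℂ) = ModularFormClass.qCoeff g ℓ ∧
          a - ((W.apOfModel ℓ : ℤ) : integralClosure ℤ ℂ) ∈ 𝔪') ∧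
      g.IsNewAt q' := by
  have _hq'p := hq'p
  exact h99_S41_of_B
    (fun M _ φ ψ hφ hψ e he m hm r hr =>
      @h92_intr (CongruenceSubgroup.Gamma0 M) (Fintype.ofFinite _) (h49_neg_one_mem M)
        φ ψ hφ hψ e he m hm r hr)
    (fun N q _ _ hqN φ ψ hφ hψ => h62_B_res_tr N q hqN φ hφ ψ hψ)
    E hW hp hp2 hN hq' hq'N hirr f 𝔪 hf hmax hpm hcong hLR

end Fermat.Agent.S41
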