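-- Statement S42 (row 40): EigenformResidualAttachmentAt M for the Frey package's prime and every M > 0.
-- Assembly (helper29, GAL lead) of the GAL project under Fermat/Agent/GAL/:
--   `gal_S42_of_inputs` (h29_Top: S29 core + helper11's packaging with the Frey representation),
--   THETA `gal_thetaProp` (analytic layer, helper77 et al.),
--   the reduction interface `h60_redData` (S37 layer, helper87 et al., on top of S18).
import Fermat.Statements.S42
import Fermat.Agent.GAL.h29_Top
import Fermat.Agent.GAL.Theta
import Fermat.Agent.S37.h60_Final

set_option autoImplicit false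
open FreyPackage

namespace Fermat.Agent.S42

theorem result (P : FreyPackage) :
    ∀ M : ℕ, 0 < M → P.EigenformResidualAttachmentAt M :=
  Fermat.Agent.GAL.gal_S42_of_inputs
    (fun N p _ _ ℓ hℓ h A hA => Fermat.Agent.S37.h60_redData N p ℓ hℓ h A hA)
    (fun N p _ hp => haveI : NeZero p := ⟨hp.ne_zero⟩; Fermat.Agent.GAL.gal_thetaProp N p)
    P

end Fermat.Agent.S42
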