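-- Statement S44 (Mazur–Ribet, Frey form: `p` can be removed from a conductor level).
-- Assembly: the J-side core `h31_core` (S40/h31_CoreB.lean: level lowering at `p ≥ 5` for an
-- elliptic curve over ℚ with an integral model, given the E-side property `h37_ESide`), the
-- E-side of the Frey curve `h26_ESide_frey` (S40/h26_ESideFrey.lean) and the Frey wrapper
-- `h30_S44_light_of_h37core` (S40/h30_S44Light.lean).
import Fermat.Statements.S44
import Fermat.Agent.S40.h31_CoreB
import Fermat.Agent.S40.h30_S44Light

set_option autoImplicit false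
open WeierstrassCurve WeierstrassCurve.Affine WeierstrassCurve.Affine.Point
open CuspForm ModularFormClass UpperHalfPlane
open FreyPackage

namespace Fermat.Agent.S44

theorem result (P : FreyPackage) {N : ℕ} (hcond : P.IsConductorLevel N) (hpN : P.p ∣ N) (hirr : GaloisRepIsIrreducible (K := AlgebraicClosure ℚ) ℚ P.freyCurve P.p) (hmod : P.ModularRepOfLevel N) : ∃ M : ℕ, M ∣ N ∧ ¬ P.p ∣ M ∧ P.ModularRepOfLevel M :=
  Fermat.Agent.S40.h30_S44_light_of_h37core (fun E _ _ hW _ _ => Fermat.Agent.S40.h31_core E hW)
    P hcond hpN hirr hmod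

end Fermat.Agent.S44
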