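import Fermat.Statements.S49
import Fermat.Agent.S49.Mem

set_option autoImplicit false
open CuspForm EisensteinWeightOne CongruenceSubgroup ModularFormClass
open FLT FLT.AbstractIntegralStructure

namespace Fermat.Agent.S49

theorem result
    {N : ℕ} [NeZero N] (h : CuspForm.HasIntegralBasis N) {a : ℕ → ℤ}
    (heig : FormalHecke.IsEigensystem
      (fun ℓ => if ℓ ∣ N then 0 else ((chiNegThree ℓ : ℤ) : ℤ)) a)
    (hreal : CuspForm.IsLatticeRealized N a) :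
    ∃ (f : CuspForm (Gamma0 N) 2) (_ : f.IsNormalizedEigenform)
      (𝔪' : Ideal (integralClosure ℤ ℂ)), 𝔪'.IsMaximal ∧
      ((3 : ℕ) : integralClosure ℤ ℂ) ∈ 𝔪' ∧
      ∀ (ℓ : ℕ) (_ : ℓ.Prime) (_ : ¬ ℓ ∣ N),
        ∃ c : integralClosure ℤ ℂ, (c : ℂ) = ModularFormClass.qCoeff f ℓ ∧
          c - (a ℓ : integralClosure ℤ ℂ) ∈ 𝔪' := by
  obtain ⟨f₀, -, af, hf₀, hbr⟩ := hreal
  have haf : ∀ n, (3 : ℤ) ∣ af n - a n := by
    intro n
    have h1 := dvd_add (hbr n) (bridge_coeff a n)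
    rwa [sub_add_sub_cancel] at h1
  have hfin : Module.Finite ℂ (CuspForm (Gamma0 N) 2) := finite_of_hasIntegralBasis h
  let ρ : heckeAlgebra N 2 ∅ →+* Module.End ℂ (CuspForm (Gamma0 N) 2) :=
    (heckeAlgebra N 2 ∅).val.toRingHom
  have hρ : Function.Injective ρ := Subtype.val_injective
  obtain ⟨v, χ, 𝔪', hv0, hmax, hev, hle⟩ := exists_eigenvector_of_ideal ρ hρ
    (isIntegral_hecke h) (congIdeal N f₀) (one_notMem_congIdeal hf₀ haf heig.1)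
  -- coefficient relations for the eigenvector
  have relT : ∀ (ℓ : ℕ) (hℓ : ℓ.Prime) (hℓN : ¬ ℓ ∣ N) (n : ℕ),
      qCoeff ⇑v (n * ℓ) + (if ℓ ∣ n then (ℓ : ℂ) * qCoeff ⇑v (n / ℓ) else 0) =
        ((χ (heckeAlgebra.T hℓ hℓN (Set.notMem_empty ℓ)) : integralClosure ℤ ℂ) : ℂ) *
          qCoeff ⇑v n := by
    intro ℓ hℓ hℓN n
    have h1 : heckeTLin 2 hℓ hℓN v =
        ((χ (heckeAlgebra.T hℓ hℓN (Set.notMem_empty ℓ)) : integralClosure ℤ ℂ) : ℂ) • v :=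
      hev (heckeAlgebra.T hℓ hℓN (Set.notMem_empty ℓ))
    rw [← qc_heckeT hℓ hℓN, h1, qc_smul]
  have relU : ∀ (ℓ : ℕ) (hℓ : ℓ.Prime) (hℓN : ℓ ∣ N) (n : ℕ),
      qCoeff ⇑v (n * ℓ) =
        ((χ (heckeAlgebra.U hℓ hℓN (Set.notMem_empty ℓ)) : integralClosure ℤ ℂ) : ℂ) *
          qCoeff ⇑v n := by
    intro ℓ hℓ hℓN n
    have h1 : heckeULin 2 hℓN v =
        ((χ (heckeAlgebra.U hℓ hℓN (Set.notMem_empty ℓ)) : integralClosure ℤ ℂ) : ℂ) • v :=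
      hev (heckeAlgebra.U hℓ hℓN (Set.notMem_empty ℓ))
    rw [← qc_heckeU hℓ hℓN, h1, qc_smul]
  have hc1 : qCoeff ⇑v 1 ≠ 0 := by
    intro h1
    apply hv0
    apply qc_eq_zero
    intro n
    induction n using Nat.strong_induction_on with
    | _ n ih =>
      rcases Nat.lt_or_ge n 2 with hn | hn
      · interval_cases n
        · exact qc_coeff_zero v
        · exact h1
      · obtain ⟨ℓ, hℓ, hdvd⟩ := Nat.exists_prime_and_dvd (show n ≠ 1 by omega)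
        obtain ⟨m, rfl⟩ := hdvd
        have hm0 : 0 < m := by
          rcases Nat.eq_zero_or_pos m with h0 | h0
          · subst h0
            omega
          · exact h0
        have hm : m < ℓ * m := by
          have := hℓ.two_le
          nlinarith
        by_cases hℓN : ℓ ∣ N
        · rw [mul_comm, relU ℓ hℓ hℓN m, ih m hm, mul_zero]
        · have h2 := relT ℓ hℓ hℓN m
          rw [ih m hm, mul_zero] at h2
          have h3 : (if ℓ ∣ m then (ℓ : ℂ) * qCoeff ⇑v (m / ℓ) else 0) = 0 := by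
            split_ifs
            · rw [ih (m / ℓ) (lt_of_le_of_lt (Nat.div_le_self m ℓ) hm), mul_zero]
            · rfl
          rw [h3, add_zero] at h2
          rw [mul_comm]
          exact h2
  -- the normalised eigenform
  let f : CuspForm (Gamma0 N) 2 := (qCoeff ⇑v 1)⁻¹ • v
  have hb : ∀ n, qCoeff ⇑f n = (qCoeff ⇑v 1)⁻¹ * qCoeff ⇑v n := fun n => qc_smul _ v n
  have hb1 : qCoeff ⇑f 1 = 1 := by
    rw [hb, inv_mul_cancel₀ hc1]
  have relT' : ∀ (ℓ : ℕ) (hℓ : ℓ.Prime) (hℓN : ¬ ℓ ∣ N) (n : ℕ),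
      qCoeff ⇑f (n * ℓ) + (if ℓ ∣ n then (ℓ : ℂ) * qCoeff ⇑f (n / ℓ) else 0) =
        ((χ (heckeAlgebra.T hℓ hℓN (Set.notMem_empty ℓ)) : integralClosure ℤ ℂ) : ℂ) *
          qCoeff ⇑f n := by
    intro ℓ hℓ hℓN n
    have h1 := relT ℓ hℓ hℓN n
    rw [hb, hb, hb]
    split_ifs at h1 ⊢ with hdvd
    · linear_combination (qCoeff ⇑v 1)⁻¹ * h1
    · linear_combination (qCoeff ⇑v 1)⁻¹ * h1
  have relU' : ∀ (ℓ : ℕ) (hℓ : ℓ.Prime) (hℓN : ℓ ∣ N) (n : ℕ),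
      qCoeff ⇑f (n * ℓ) =
        ((χ (heckeAlgebra.U hℓ hℓN (Set.notMem_empty ℓ)) : integralClosure ℤ ℂ) : ℂ) *
          qCoeff ⇑f n := by
    intro ℓ hℓ hℓN n
    have h1 := relU ℓ hℓ hℓN n
    rw [hb, hb]
    linear_combination (qCoeff ⇑v 1)⁻¹ * h1
  have eigT : ∀ (ℓ : ℕ) (hℓ : ℓ.Prime) (hℓN : ¬ ℓ ∣ N),
      ((χ (heckeAlgebra.T hℓ hℓN (Set.notMem_empty ℓ)) : integralClosure ℤ ℂ) : ℂ) =
        qCoeff ⇑f ℓ := by
    intro ℓ hℓ hℓN
    have h1 := relT' ℓ hℓ hℓN 1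
    rw [if_neg (by simpa using hℓ.one_lt.ne'), one_mul, add_zero, hb1, mul_one] at h1
    exact h1.symm
  have eigU : ∀ (ℓ : ℕ) (hℓ : ℓ.Prime) (hℓN : ℓ ∣ N),
      ((χ (heckeAlgebra.U hℓ hℓN (Set.notMem_empty ℓ)) : integralClosure ℤ ℂ) : ℂ) =
        qCoeff ⇑f ℓ := by
    intro ℓ hℓ hℓN
    have h1 := relU' ℓ hℓ hℓN 1
    rw [one_mul, hb1, mul_one] at h1
    exact h1.symm
  have hsys : FormalHecke.IsEigensystem (fun ℓ : ℕ => if ℓ ∣ N then (0 : ℂ) else (ℓ : ℂ))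
      (fun n => qCoeff ⇑f n) := by
    refine ⟨hb1, ?_⟩
    intro ℓ hℓ n
    by_cases hℓN : ℓ ∣ N
    · simp only [if_pos hℓN, zero_mul, add_zero]
      rw [mul_comm ℓ n, relU' ℓ hℓ hℓN n, eigU ℓ hℓ hℓN]
    · simp only [if_neg hℓN]
      have h1 := relT' ℓ hℓ hℓN n
      rw [eigT ℓ hℓ hℓN] at h1
      rw [mul_comm ℓ n, ← h1]
      split_ifs <;> simp
  obtain ⟨-, hmul, hpow⟩ := isRecursive_of_isEigensystem hsys
  have hnorm : f.IsNormalizedEigenform := by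
    refine ⟨hb1, hmul, ?_, ?_⟩
    · intro p r hp hpN
      have h1 := hpow p r hp
      simp only [if_neg hpN] at h1
      exact h1
    · intro p r hp hpN
      have h1 := hpow p r hp
      simp only [if_pos hpN, zero_mul, sub_zero] at h1
      exact h1
  refine ⟨f, hnorm, 𝔪', hmax, ?_, ?_⟩
  · have h1 : χ ((3 : ℕ) : heckeAlgebra N 2 ∅) ∈ 𝔪' := hle (three_mem_congIdeal hf₀)
    rwa [map_natCast] at h1
  · intro ℓ hℓ hℓN
    refine ⟨χ (heckeAlgebra.T hℓ hℓN (Set.notMem_empty ℓ)), eigT ℓ hℓ hℓN, ?_⟩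
    have h1 : χ ((heckeAlgebra.T hℓ hℓN (Set.notMem_empty ℓ) : heckeAlgebra N 2 ∅) -
        ((a ℓ : ℤ) : heckeAlgebra N 2 ∅)) ∈ 𝔪' := hle (T_sub_mem_congIdeal hf₀ haf heig hℓ hℓN)
    rwa [map_sub, map_intCast] at h1

end Fermat.Agent.S49
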