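-- Statement S53: existence of deformation ring data (Mazur), assembled from the
-- `Fermat.Agent.S53.*` library: slice data, the rigid functor of normalized lifts,
-- abstract pro-representability and the final glue.
import Fermat.Statements.S53
import Fermat.Agent.S53.SliceData
import Fermat.Agent.S53.RepRigid
import Fermat.Agent.S53.Final
import Fermat.Agent.S53.h52_Core

set_option autoImplicit false
set_option autoImplicit false
open GaloisRep

namespace Fermat.Agent.S53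

theorem result
    (𝒪 : Type) [CommRing 𝒪] [IsDomain 𝒪] [IsDiscreteValuationRing 𝒪]
    [IsAdicComplete (IsLocalRing.maximalIdeal 𝒪) 𝒪] [Finite (IsLocalRing.ResidueField 𝒪)]
    (ρbar : ResidualGaloisRep (IsLocalRing.ResidueField 𝒪))
    (𝒟 : ∀ ⦃A : Type⦄ [CommRing A] [IsLocalRing A] [Algebra 𝒪 A], GaloisRepAdic A → Prop)
    (habs : ρbar.IsAbsolutelyIrreducible)
    (h𝒟 : GaloisRep.IsDeformationCondition 𝒪 𝒟)
    (hbar : 𝒟 (GaloisRepAdic.ofResidualGaloisRep ρbar))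
    (hfin : GaloisRep.TangentFinite 𝒪 ρbar 𝒟) :
    Nonempty (GaloisRep.DeformationRingData 𝒪 ρbar 𝒟) := by
  obtain ⟨r0, hr0, ⟨S⟩⟩ := exists_sliceData 𝒪 ρbar habs
  have hF : IsRigidFunctor 𝒪 (GQ × Fin 2 × Fin 2) (fun γ => r0 γ.1 γ.2.1 γ.2.2)
      (EntryF 𝒟 S) := rep_isRigidFunctor S h𝒟 hbar hfin hr0
  obtain ⟨R, _, _, _, _, _, _, xR, hsurj, hU1, hU2⟩ :=
    h52c_exists_universal 𝒪 (GQ × Fin 2 × Fin 2) _ _ hF
  exact deformationRingData_of_universal 𝒪 ρbar 𝒟 habs h𝒟 r0 hr0 S R hsurj xR hU1 hU2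

end Fermat.Agent.S53
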