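import Fermat.Statements.S57
import Fermat.Agent.S57.helper86_Core
import Fermat.Agent.S57.helper1_Regular
import Fermat.Agent.S57.helper56_Assemble

set_option autoImplicit false
open Algebra Algebra.PatchingLevel

namespace Fermat.Agent.S57

theorem result
    {𝒪 : Type} [CommRing 𝒪] [IsDomain 𝒪] [IsDiscreteValuationRing 𝒪]
    {r : ℕ} {R : Type} [CommRing R] [Algebra 𝒪 R]
    {M : Type} [AddCommGroup M] [Module R M] [Nontrivial M]
    (L : Algebra.PatchingLevel 𝒪 r R M ⊥) :
    Module.Free R M ∧ Module.annihilator R M = ⊥ ∧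
      RingHom.ker L.ψ = Ideal.span (Set.range fun i : Fin r => L.φ (MvPowerSeries.X i)) := by
  obtain ⟨xs, hxs, hxs'⟩ := exists_regular_generators 𝒪 r
  refine result_of_free L (free_of_free_via
    (L.φ : MvPowerSeries (Fin r) 𝒪 →+* MvPowerSeries (Fin r) 𝒪)
    L.b L.b_span (fun c hc => ?_) xs hxs.toIsWeaklyRegular ?_ xs hxs hxs' rfl)
  · have := (L.b_rel c).mp hc
    simpa using this
  · rw [hxs']; infer_instance

end Fermat.Agent.S57
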